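import Mathlib
import Fermat.Agent.GalRep.ESSeries
import Fermat.Prelude.Def_ModularCurve_HeckeModule

/-!
# S37: definitions of the package HECKE-P

* `S37_t N ℓ f := Norm_{F_{Nℓ} / α F_N} (β f)`, the multiplicative Hecke operator attached to the
  Prelude's correspondence `T_ℓ = α_* ∘ β^*` (`α` = inclusion `F_N ⊂ F_{Nℓ}`, `β f = f(q^ℓ)`).
* `S37_HeckeP N ℓ`: `HeckeInputsAlong ℚ̄ N ℓ` and the `q`-expansion formula (H1) for `S37_t`.
-/

set_option autoImplicit false

open HahnSeries IntermediateField AlgebraicCurve ModularCurve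

namespace Fermat.Agent.S37

open Fermat.Agent.GalRep

variable (N : ℕ) [NeZero N] (ℓ : ℕ) [NeZero ℓ]

/-- the multiplicative Hecke operator `t f = Norm_{F_{Nℓ} / α F_N} (β f)`. -/
noncomputable def S37_t (f : ↥(modularFunctionFieldBar N)) : ↥(modularFunctionFieldBar N) :=
  letI := algebraAlong (heckeAlphaBar (AlgebraicClosure ℚ) N ℓ)
  Algebra.norm ↥(modularFunctionFieldBar N) (heckeBetaBar (AlgebraicClosure ℚ) N ℓ f)

/-- the `q`-expansion formula (H1) for `S37_t`. -/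
def S37_H1Stmt : Prop :=
  ∃ ζ : (AlgebraicClosure ℚ)ˣ, ζ ^ ℓ = 1 ∧
    ∀ f : ↥(modularFunctionFieldBar N), f ≠ 0 →
      qExpand (AlgebraicClosure ℚ) ℓ (S37_t N ℓ f : LaurentSeries (AlgebraicClosure ℚ)) =
        ES_rhs ℓ ζ (f : LaurentSeries (AlgebraicClosure ℚ))

/-- **HECKE-P**: the inputs of the Prelude's Hecke correspondence and (H1) for the norm. -/
def S37_HeckeP : Prop :=
  HeckeInputsAlong (AlgebraicClosure ℚ) N ℓ ∧ S37_H1Stmt N ℓ

end Fermat.Agent.S37
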