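import Mathlib
import Fermat.Agent.Lib.RiemannThm

/-!
# S37: the norm trick

`F / K` a function field satisfying `RR_Hyp` (all places of degree one, principal divisors,
Riemann's inequality).  An additive map `Ψ : Div(F) →+ (X →₀ ℤ)` which kills the principal
divisors and is bounded on effective divisors (`|Ψ E x| ≤ C · deg E`) kills `Div⁰(F)`.

Proof: for places `P₀, P₁` and `m ≥ 1`, Riemann's inequality gives `f ≠ 0` with
`div f = m P₀ - m P₁ - g P₁ + E`, `E ≥ 0` of degree `g`; hence
`m (Ψ P₁ - Ψ P₀) = Ψ E - g Ψ P₁` is bounded independently of `m`, so `Ψ P₀ = Ψ P₁`.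
-/

set_option autoImplicit false

open AlgebraicCurve Fermat.Agent.Lib

namespace Fermat.Agent.S37

variable {K F : Type*} [Field K] [Field F] [Algebra K F]

theorem S37_degree_single_one (h : RR_Hyp K F) (P : Place K F) :
    Divisor.degree (Finsupp.single P (1 : ℤ)) = 1 := by
  rw [Divisor.degree_single, h.deg_one, Nat.cast_one, mul_one]

theorem S37_single_one_nonneg (P : Place K F) : (0 : Divisor K F) ≤ Finsupp.single P (1 : ℤ) := by
  have := RR_single_nonneg P 1
  simp

/-- scalar norm trick: the value on a place does not depend on the place. -/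
theorem S37_trick_single (h : RR_Hyp K F) (lam : Divisor K F →+ ℤ) (C : ℤ)
    (hprin : ∀ f : F, f ≠ 0 → lam (RR_div h.principal f) = 0)
    (hb : ∀ E : Divisor K F, 0 ≤ E → |lam E| ≤ C * E.degree)
    (P₀ P₁ : Place K F) : lam (Finsupp.single P₀ 1) = lam (Finsupp.single P₁ 1) := by
  classical
  set g : ℤ := (RR_genus K F : ℤ) with hg
  have hg0 : 0 ≤ g := by positivity
  have hb1 : |lam (Finsupp.single P₁ 1)| ≤ C := by
    have := hb _ (S37_single_one_nonneg P₁)
    rwa [S37_degree_single_one h, mul_one] at this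
  have hC : 0 ≤ C := le_trans (abs_nonneg _) hb1
  by_contra hne
  set d : ℤ := lam (Finsupp.single P₁ 1) - lam (Finsupp.single P₀ 1) with hd
  have hd0 : d ≠ 0 := fun h0 => hne (by rw [hd, sub_eq_zero] at h0; exact h0.symm)
  have hd1 : 1 ≤ |d| := Int.one_le_abs hd0
  set m : ℤ := 2 * g * C + 1 with hm
  have hm0 : 0 ≤ m := by positivity
  set D : Divisor K F :=
    m • Finsupp.single P₁ (1 : ℤ) - m • Finsupp.single P₀ (1 : ℤ) + g • Finsupp.single P₁ (1 : ℤ)
    with hD
  have hDdeg : D.degree = g := by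
    rw [hD, map_add, map_sub, map_zsmul, map_zsmul, map_zsmul, S37_degree_single_one h,
      S37_degree_single_one h]
    simp
  have hpos : 0 < Module.finrank K (riemannRochSpace D) := by
    have h1 := RR_riemann_ineq h D
    rw [hDdeg] at h1
    have : (0 : ℤ) < Module.finrank K (riemannRochSpace D) := by linarith
    exact_mod_cast this
  obtain ⟨f, hf0, hf⟩ := RR_exists_ne_zero_of_finrank_pos hpos
  have hE : 0 ≤ D + RR_div h.principal f := (RR_mem_iff_div h.principal hf0).1 hf
  have hbE := hb _ hE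
  have e1 : lam (D + RR_div h.principal f) = lam D := by
    rw [map_add lam, hprin f hf0, add_zero]
  have e2 : Divisor.degree (D + RR_div h.principal f) = g := by
    rw [map_add Divisor.degree, RR_div_degree, add_zero, hDdeg]
  rw [e1, e2] at hbE
  have hlamD : lam D = m * d + g * lam (Finsupp.single P₁ 1) := by
    rw [hD, map_add, map_sub, map_zsmul, map_zsmul, map_zsmul, hd]
    simp only [smul_eq_mul]
    ring
  rw [hlamD] at hbE
  -- `|m d| ≤ C g + g C < m ≤ |m d|`
  have h1 : |m * d| ≤ C * g + g * C := by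
    have h2 : |g * lam (Finsupp.single P₁ 1)| ≤ g * C := by
      rw [abs_mul, abs_of_nonneg hg0]
      exact mul_le_mul_of_nonneg_left hb1 hg0
    have h3 : m * d = (m * d + g * lam (Finsupp.single P₁ 1)) - g * lam (Finsupp.single P₁ 1) := by
      ring
    rw [h3]
    exact le_trans (abs_sub _ _) (add_le_add hbE h2)
  have h4 : m ≤ |m * d| := by
    rw [abs_mul, abs_of_nonneg hm0]
    exact le_mul_of_one_le_right hm0 hd1
  have : m ≤ C * g + g * C := le_trans h4 h1
  rw [hm] at this
  linarith

theorem S37_single_eq_smul (P : Place K F) (n : ℤ) :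
    (Finsupp.single P n : Divisor K F) = n • Finsupp.single P (1 : ℤ) := by
  rw [Finsupp.smul_single, smul_eq_mul, mul_one]

/-- scalar norm trick: the map kills the divisors of degree `0`. -/
theorem S37_trick_scalar (h : RR_Hyp K F) (lam : Divisor K F →+ ℤ) (C : ℤ)
    (hprin : ∀ f : F, f ≠ 0 → lam (RR_div h.principal f) = 0)
    (hb : ∀ E : Divisor K F, 0 ≤ E → |lam E| ≤ C * E.degree)
    (D : Divisor K F) (hD : D.degree = 0) : lam D = 0 := by
  classical
  obtain ⟨P⟩ := h.nonempty
  have h1 : lam D = ∑ v ∈ D.support, D v * lam (Finsupp.single P 1) := by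
    conv_lhs => rw [← Finsupp.sum_single D]
    rw [Finsupp.sum, map_sum]
    refine Finset.sum_congr rfl fun v _ => ?_
    rw [S37_single_eq_smul, map_zsmul, smul_eq_mul,
      S37_trick_single h lam C hprin hb v P]
  rw [h1, ← Finset.sum_mul, ← RR_degree_eq_sum h.deg_one, hD, zero_mul]

/-- **the norm trick**. -/
theorem S37_trick {X : Type*} (h : RR_Hyp K F) (Ψ : Divisor K F →+ (X →₀ ℤ)) (C : ℤ)
    (hprin : ∀ f : F, f ≠ 0 → Ψ (RR_div h.principal f) = 0)
    (hb : ∀ E : Divisor K F, 0 ≤ E → ∀ x : X, |Ψ E x| ≤ C * E.degree)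
    (D : Divisor K F) (hD : D.degree = 0) : Ψ D = 0 := by
  ext x
  rw [Finsupp.zero_apply]
  refine S37_trick_scalar h ((Finsupp.applyAddHom x).comp Ψ) C (fun f hf => ?_)
    (fun E hE => hb E hE x) D hD
  show Ψ (RR_div h.principal f) x = 0
  rw [hprin f hf, Finsupp.zero_apply]

/-- positivity and boundedness of `mapDomain` on effective divisors. -/
theorem S37_mapDomain_nonneg {X Y : Type*} (r : X → Y) {E : X →₀ ℤ} (hE : 0 ≤ E) :
    0 ≤ Finsupp.mapDomain r E := by
  classical
  rw [Finsupp.mapDomain, Finsupp.sum]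
  refine Finset.sum_nonneg fun v _ => ?_
  rw [Finsupp.le_def]
  intro y
  rw [Finsupp.zero_apply, Finsupp.single_apply]
  split_ifs
  · exact Finsupp.le_def.1 hE v
  · exact le_rfl

theorem S37_mapDomain_apply_le {X Y : Type*} (r : X → Y) {E : X →₀ ℤ} (hE : 0 ≤ E) (y : Y) :
    Finsupp.mapDomain r E y ≤ ∑ v ∈ E.support, E v := by
  classical
  rw [Finsupp.mapDomain, Finsupp.sum, Finsupp.finsetSum_apply]
  refine Finset.sum_le_sum fun v _ => ?_
  rw [Finsupp.single_apply]
  split_ifs
  · exact le_rfl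
  · exact Finsupp.le_def.1 hE v

theorem S37_sum_mapDomain {X Y : Type*} (r : X → Y) (E : X →₀ ℤ) :
    ∑ y ∈ (Finsupp.mapDomain r E).support, Finsupp.mapDomain r E y = ∑ v ∈ E.support, E v := by
  classical
  have h1 := Finsupp.sum_mapDomain_index_addMonoidHom (f := r) (s := E)
    (h := fun _ => AddMonoidHom.id ℤ)
  simpa [Finsupp.sum] using h1

end Fermat.Agent.S37
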