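import Mathlib
import Fermat.Prelude.Def_HeckeGalois_EichlerShimura

/-!
# S37, layer 1 (pure algebra): a specialization from any additive map `φ` killing
`(τ - 1) J` and `(σ² - T_ℓ σ + ℓ) J`

`J` a `HeckeAlg`-module with a commuting action of `G = Aut(L/K)`, `A` a valuation subring of `L`,
`φ : J →+ M` additive with
* `φ (τ • x) = φ x` for `τ` in the inertia group of `A`,
* `φ (σ • σ • x - T_ℓ • σ • x + ℓ • x) = 0` for every Frobenius `σ` at `A`,
* `φ` injective on the `p`-power torsion.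
Then `J' := J ⧸ K`, `K := {x | ∀ T g, g ∈ D_A → φ (T • g • x) = 0}`, is a specialization
(`IsSpecialization` + `SpecialFibreRelation`).  If `A` has no Frobenius element, the companion
construction on `J' × J'` is used.
-/

set_option autoImplicit false

open ModularCurve

namespace Fermat.Agent.S37

section Frob

variable {K L : Type*} [Field K] [Field L] [Algebra K L] (A : ValuationSubring L)

/-- membership in `inertiaSubgroupIn`. -/
theorem S37_mem_inertiaIn_iff (τ : L ≃ₐ[K] L) :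
    τ ∈ A.inertiaSubgroupIn K ↔ ∃ h : τ ∈ A.decompositionSubgroup K,
      ∀ x : IsLocalRing.ResidueField A, (⟨τ, h⟩ : A.decompositionSubgroup K) • x = x := by
  constructor
  · rintro ⟨g, hg, rfl⟩
    refine ⟨g.2, fun x => ?_⟩
    have h1 : MulSemiringAction.toRingAut (A.decompositionSubgroup K)
        (IsLocalRing.ResidueField A) g = 1 := hg
    exact congrArg (fun e : RingAut (IsLocalRing.ResidueField A) => e x) h1
  · rintro ⟨h, hx⟩
    refine ⟨⟨τ, h⟩, ?_, rfl⟩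
    show MulSemiringAction.toRingAut (A.decompositionSubgroup K)
        (IsLocalRing.ResidueField A) ⟨τ, h⟩ = 1
    ext x
    exact hx x

theorem S37_inertiaIn_le (τ : L ≃ₐ[K] L) (h : τ ∈ A.inertiaSubgroupIn K) :
    τ ∈ A.decompositionSubgroup K :=
  ((S37_mem_inertiaIn_iff A τ).1 h).1

/-- two Frobenius elements differ by an element of the inertia group. -/
theorem S37_frob_inv_mul {q : ℕ} {σ σ' : L ≃ₐ[K] L} (hσ : A.IsFrobeniusAt σ q)
    (hσ' : A.IsFrobeniusAt σ' q) : σ⁻¹ * σ' ∈ A.inertiaSubgroupIn K := by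
  rw [S37_mem_inertiaIn_iff]
  refine ⟨mul_mem (inv_mem hσ.mem_decompositionSubgroup) hσ'.mem_decompositionSubgroup,
    fun x => ?_⟩
  have h1 : (⟨σ⁻¹ * σ', mul_mem (inv_mem hσ.mem_decompositionSubgroup)
      hσ'.mem_decompositionSubgroup⟩ : A.decompositionSubgroup K) =
      (⟨σ, hσ.mem_decompositionSubgroup⟩ : A.decompositionSubgroup K)⁻¹ *
        ⟨σ', hσ'.mem_decompositionSubgroup⟩ := rfl
  rw [h1, mul_smul, hσ'.smul_residue_eq, inv_smul_eq_iff, hσ.smul_residue_eq]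

/-- conjugates of inertia elements under the decomposition group. -/
theorem S37_conj_inertia {g τ : L ≃ₐ[K] L} (hg : g ∈ A.decompositionSubgroup K)
    (hτ : τ ∈ A.inertiaSubgroupIn K) : g * τ * g⁻¹ ∈ A.inertiaSubgroupIn K := by
  rw [S37_mem_inertiaIn_iff] at hτ ⊢
  obtain ⟨hτd, hτx⟩ := hτ
  refine ⟨mul_mem (mul_mem hg hτd) (inv_mem hg), fun x => ?_⟩
  have h1 : (⟨g * τ * g⁻¹, mul_mem (mul_mem hg hτd) (inv_mem hg)⟩ :
      A.decompositionSubgroup K) =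
      (⟨g, hg⟩ : A.decompositionSubgroup K) * ⟨τ, hτd⟩ * (⟨g, hg⟩)⁻¹ := rfl
  rw [h1, mul_smul, mul_smul, hτx, smul_inv_smul]

/-- conjugates of Frobenius elements under the decomposition group. -/
theorem S37_conj_frob {q : ℕ} {g σ : L ≃ₐ[K] L} (hg : g ∈ A.decompositionSubgroup K)
    (hσ : A.IsFrobeniusAt σ q) : A.IsFrobeniusAt (g * σ * g⁻¹) q := by
  refine ⟨mul_mem (mul_mem hg hσ.mem_decompositionSubgroup) (inv_mem hg), fun x => ?_⟩
  have h1 : (⟨g * σ * g⁻¹, mul_mem (mul_mem hg hσ.mem_decompositionSubgroup) (inv_mem hg)⟩ :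
      A.decompositionSubgroup K) =
      (⟨g, hg⟩ : A.decompositionSubgroup K) * ⟨σ, hσ.mem_decompositionSubgroup⟩ *
        (⟨g, hg⟩)⁻¹ := rfl
  rw [h1, mul_smul, mul_smul, hσ.smul_residue_eq, smul_pow', smul_inv_smul]

end Frob

section Quot

variable (K : Type*) {L : Type*} [Field K] [Field L] [Algebra K L]
variable (J : Type) [AddCommGroup J] [Module HeckeAlg J]
  [DistribMulAction (L ≃ₐ[K] L) J] [SMulCommClass (L ≃ₐ[K] L) HeckeAlg J]
variable (A : ValuationSubring L) {M : Type*} [AddCommGroup M] (φ : J →+ M)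

omit [Module HeckeAlg J] [SMulCommClass (L ≃ₐ[K] L) HeckeAlg J] in
theorem S37_smul_nsmul (g : L ≃ₐ[K] L) (n : ℕ) (x : J) : g • (n • x) = n • (g • x) :=
  map_nsmul (DistribSMul.toAddMonoidHom J g) n x

theorem S37_hecke_nsmul (T : HeckeAlg) (n : ℕ) (x : J) : T • (n • x) = n • (T • x) :=
  smul_comm T n x

/-- the kernel submodule. -/
def S37_K : Submodule HeckeAlg J where
  carrier := {x | ∀ (T : HeckeAlg) (g : L ≃ₐ[K] L), g ∈ A.decompositionSubgroup K →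
    φ (T • g • x) = 0}
  zero_mem' := fun T g _ => by rw [smul_zero, smul_zero, map_zero]
  add_mem' := fun {x y} hx hy T g hg => by
    rw [smul_add, smul_add, map_add, hx T g hg, hy T g hg, add_zero]
  smul_mem' := fun c x hx T g hg => by
    rw [smul_comm g c x, ← mul_smul]
    exact hx (T * c) g hg

theorem S37_mem_K (x : J) : x ∈ S37_K K J A φ ↔ ∀ (T : HeckeAlg) (g : L ≃ₐ[K] L),
    g ∈ A.decompositionSubgroup K → φ (T • g • x) = 0 := Iff.rfl

theorem S37_K_le_ker {x : J} (hx : x ∈ S37_K K J A φ) : φ x = 0 := by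
  have := hx 1 1 (one_mem _)
  rwa [one_smul, one_smul] at this

theorem S37_K_smul {g : L ≃ₐ[K] L} (hg : g ∈ A.decompositionSubgroup K) {x : J}
    (hx : x ∈ S37_K K J A φ) : g • x ∈ S37_K K J A φ := fun T h hh => by
  rw [← mul_smul]
  exact hx T (h * g) (mul_mem hh hg)

variable {K J A φ}

theorem S37_K_inertia (hI : ∀ τ ∈ A.inertiaSubgroupIn K, ∀ x : J, φ (τ • x) = φ x)
    {τ : L ≃ₐ[K] L} (hτ : τ ∈ A.inertiaSubgroupIn K) (x : J) :
    τ • x - x ∈ S37_K K J A φ := fun T g hg => by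
  have h1 : T • g • (τ • x - x) = (g * τ * g⁻¹) • (T • g • x) - T • g • x := by
    rw [smul_sub, smul_sub, smul_comm (g * τ * g⁻¹) T, ← mul_smul (g * τ * g⁻¹) g,
      inv_mul_cancel_right, mul_smul]
  rw [h1, map_sub, hI _ (S37_conj_inertia A hg hτ), sub_self]

theorem S37_K_frob {ℓ : ℕ} (hℓ : ℓ.Prime)
    (hF : ∀ σ : L ≃ₐ[K] L, A.IsFrobeniusAt σ ℓ → ∀ x : J,
      φ (σ • σ • x - heckeGen ⟨ℓ, hℓ⟩ • σ • x + ℓ • x) = 0)
    {σ : L ≃ₐ[K] L} (hσ : A.IsFrobeniusAt σ ℓ) (x : J) :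
    σ • σ • x - heckeGen ⟨ℓ, hℓ⟩ • σ • x + ℓ • x ∈ S37_K K J A φ := fun T g hg => by
  have hc : ∀ y : J, g • σ • y = (g * σ * g⁻¹) • g • y := fun y => by
    rw [← mul_smul (g * σ * g⁻¹) g, inv_mul_cancel_right, mul_smul]
  have h1 : T • g • (σ • σ • x - heckeGen ⟨ℓ, hℓ⟩ • σ • x + ℓ • x) =
      (g * σ * g⁻¹) • (g * σ * g⁻¹) • (T • g • x)
        - heckeGen ⟨ℓ, hℓ⟩ • (g * σ * g⁻¹) • (T • g • x) + ℓ • (T • g • x) := by
    rw [smul_add, smul_sub, smul_add, smul_sub, hc, hc, smul_comm g (heckeGen ⟨ℓ, hℓ⟩), hc,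
      S37_smul_nsmul, S37_hecke_nsmul, smul_comm T (heckeGen ⟨ℓ, hℓ⟩),
      smul_comm (g * σ * g⁻¹) T, smul_comm (g * σ * g⁻¹) T]
  rw [h1]
  exact hF _ (S37_conj_frob A hg hσ) _

variable (K J A φ)

/-- the Galois action of an element of the decomposition group on `J ⧸ K`. -/
noncomputable def S37_F (g : L ≃ₐ[K] L) (hg : g ∈ A.decompositionSubgroup K) :
    (J ⧸ S37_K K J A φ) →+ (J ⧸ S37_K K J A φ) :=
  ((S37_K K J A φ).mapQ (S37_K K J A φ)
    ({ toFun := fun x => g • x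
       map_add' := fun x y => smul_add g x y
       map_smul' := fun c x => smul_comm g c x } : J →ₗ[HeckeAlg] J)
    (fun _ hx => S37_K_smul K J A φ hg hx)).toAddMonoidHom

theorem S37_F_mk (g : L ≃ₐ[K] L) (hg : g ∈ A.decompositionSubgroup K) (x : J) :
    S37_F K J A φ g hg ((S37_K K J A φ).mkQ x) = (S37_K K J A φ).mkQ (g • x) := rfl

/-- the companion operator on `J' × J'`. -/
noncomputable def S37_comp (J' : Type) [AddCommGroup J'] [Module HeckeAlg J'] (t : HeckeAlg)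
    (ℓ : ℕ) : (J' × J') →+ (J' × J') where
  toFun y := (t • y.1 - ℓ • y.2, y.1)
  map_zero' := by simp
  map_add' y z := by
    ext
    · simp only [Prod.fst_add, Prod.snd_add, smul_add]
      abel
    · rfl

variable {K J A φ}

/-- **S37, layer 1**. -/
theorem S37_exists_of_map (p : ℕ) (ℓ : ℕ) (hℓ : ℓ.Prime)
    (hI : ∀ τ ∈ A.inertiaSubgroupIn K, ∀ x : J, φ (τ • x) = φ x)
    (hF : ∀ σ : L ≃ₐ[K] L, A.IsFrobeniusAt σ ℓ → ∀ x : J,
      φ (σ • σ • x - heckeGen ⟨ℓ, hℓ⟩ • σ • x + ℓ • x) = 0)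
    (hinj : ∀ x : J, (∃ n : ℕ, p ^ n • x = 0) → φ x = 0 → x = 0) :
    ∃ (J' : Type) (_ : AddCommGroup J') (_ : Module HeckeAlg J') (sp : J →+ J')
      (F : J' →+ J'),
      IsSpecialization (K := K) p J J' A ℓ sp F ∧ SpecialFibreRelation J' ℓ hℓ F := by
  by_cases hex : ∃ σ₀ : L ≃ₐ[K] L, A.IsFrobeniusAt σ₀ ℓ
  · obtain ⟨σ₀, hσ₀⟩ := hex
    refine ⟨J ⧸ S37_K K J A φ, inferInstance, inferInstance,
      (S37_K K J A φ).mkQ.toAddMonoidHom, S37_F K J A φ σ₀ hσ₀.mem_decompositionSubgroup,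
      ⟨fun T x => rfl, fun τ hτ x => ?_, fun σ hσ x => ?_, fun x hx h0 => ?_⟩, fun y => ?_⟩
    · exact (Submodule.Quotient.eq _).2 (S37_K_inertia hI hτ x)
    · show (S37_K K J A φ).mkQ (σ • x) = (S37_K K J A φ).mkQ (σ₀ • x)
      refine (Submodule.Quotient.eq _).2 ?_
      have h1 : σ • x - σ₀ • x = σ₀ • ((σ₀⁻¹ * σ) • x - x) := by
        rw [smul_sub, ← mul_smul, mul_inv_cancel_left]
      rw [h1]
      exact S37_K_smul K J A φ hσ₀.mem_decompositionSubgroup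
        (S37_K_inertia hI (S37_frob_inv_mul A hσ₀ hσ) x)
    · exact hinj x hx (S37_K_le_ker K J A φ ((Submodule.Quotient.mk_eq_zero _).1 h0))
    · obtain ⟨x, rfl⟩ := (S37_K K J A φ).mkQ_surjective y
      show (S37_K K J A φ).mkQ (σ₀ • σ₀ • x) - heckeGen ⟨ℓ, hℓ⟩ • (S37_K K J A φ).mkQ (σ₀ • x)
        + ℓ • (S37_K K J A φ).mkQ x = 0
      rw [← map_smul, ← map_nsmul, ← map_sub, ← map_add]
      exact (Submodule.Quotient.mk_eq_zero _).2 (S37_K_frob hℓ hF hσ₀ x)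
  · refine ⟨(J ⧸ S37_K K J A φ) × (J ⧸ S37_K K J A φ), inferInstance, inferInstance,
      (AddMonoidHom.inl _ _).comp (S37_K K J A φ).mkQ.toAddMonoidHom,
      S37_comp (J ⧸ S37_K K J A φ) (heckeGen ⟨ℓ, hℓ⟩) ℓ,
      ⟨fun T x => ?_, fun τ hτ x => ?_, fun σ hσ x => absurd ⟨σ, hσ⟩ hex, fun x hx h0 => ?_⟩,
      fun y => ?_⟩
    · show ((S37_K K J A φ).mkQ (T • x), (0 : J ⧸ S37_K K J A φ)) =
        T • ((S37_K K J A φ).mkQ x, (0 : J ⧸ S37_K K J A φ))
      rw [Prod.smul_mk, smul_zero, map_smul]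
    · show ((S37_K K J A φ).mkQ (τ • x), (0 : J ⧸ S37_K K J A φ)) =
        ((S37_K K J A φ).mkQ x, (0 : J ⧸ S37_K K J A φ))
      exact congrArg (fun a : J ⧸ S37_K K J A φ => (a, (0 : J ⧸ S37_K K J A φ)))
        ((Submodule.Quotient.eq _).2 (S37_K_inertia hI hτ x))
    · have h1 : (S37_K K J A φ).mkQ x = 0 := congrArg Prod.fst h0
      exact hinj x hx (S37_K_le_ker K J A φ ((Submodule.Quotient.mk_eq_zero _).1 h1))
    · obtain ⟨a, b⟩ := y
      show ((heckeGen ⟨ℓ, hℓ⟩ • (heckeGen ⟨ℓ, hℓ⟩ • a - ℓ • b) - ℓ • a,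
          heckeGen ⟨ℓ, hℓ⟩ • a - ℓ • b) : (J ⧸ S37_K K J A φ) × (J ⧸ S37_K K J A φ))
        - heckeGen ⟨ℓ, hℓ⟩ • (heckeGen ⟨ℓ, hℓ⟩ • a - ℓ • b, a) + ℓ • (a, b) = 0
      ext
      · simp only [Prod.fst_add, Prod.fst_sub, Prod.smul_fst, Prod.fst_zero]
        abel
      · simp only [Prod.snd_add, Prod.snd_sub, Prod.smul_snd, Prod.snd_zero]
        abel

end Quot

end Fermat.Agent.S37
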