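import Mathlib
import Fermat.Agent.S37.NormTrick
import Fermat.Agent.S37.Quot
import Fermat.Agent.S37.Defs
import Fermat.Agent.GalRep.ES
import Fermat.Agent.Lib.RiemannCharZero
import Fermat.Prelude.Def_ModularCurve_HeckeModule

/-!
# S37, layer 2: the reduction map kills `(τ - 1) J` and `(σ² - T_ℓ σ + ℓ) J`

Inputs: `h : ReductionInputsModL A N` (RI), helper16's `ES_frob_rdiv`, `ES_inertia_rdiv`, and the
package HECKE-P (`S37_HeckeP N ℓ`): `HeckeInputsAlong ℚ̄ N ℓ` and the `q`-expansion formula (H1)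
for `t f := Norm_{F_{Nℓ}/α F_N} (β f)`.  The norm trick extends the divisor identities from the
principal divisors to all divisors of degree `0`.
-/

set_option autoImplicit false
set_option synthInstance.maxHeartbeats 400000
set_option maxHeartbeats 1000000
set_option linter.unusedSectionVars false
set_option linter.style.haveILetI false

open HahnSeries IntermediateField AlgebraicCurve ModularCurve

namespace Fermat.Agent.S37

open Fermat.Agent.S18 Fermat.Agent.Lib Fermat.Agent.GalRep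

variable (N : ℕ) [NeZero N]

/-- Riemann's theorem for `F = ℚ̄(X₀(N))`. -/
theorem S37_hRR : RR_Hyp (AlgebraicClosure ℚ) ↥(modularFunctionFieldBar N) := by
  have := Fermat.Agent.S24.finiteDimensional_jB N
  exact RR_hyp_of_charZero (Fermat.Agent.S24.transcendental_jB N)

theorem S37_RR_div_eq (f : ↥(modularFunctionFieldBar N)) :
    RR_div (S37_hRR N).principal f = ES_div N f := by
  ext v
  rw [RR_div_apply, ES_div_apply]

/-- the divisor of a Galois conjugate. -/
theorem S37_div_smul (g : SemilinearAut (AlgebraicClosure ℚ) ↥(modularFunctionFieldBar N))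
    (f : ↥(modularFunctionFieldBar N)) : g • ES_div N f = ES_div N (g • f) := by
  ext w
  rw [SemilinearAut.divisor_smul_apply, ES_div_apply, ES_div_apply]
  have h := SemilinearAut.ord_smul g (g⁻¹ • w) f
  rw [smul_inv_smul] at h
  exact h.symm

section Hecke

variable (ℓ : ℕ) [NeZero ℓ]

variable {N ℓ}
variable (hα : (heckeAlphaBar (AlgebraicClosure ℚ) N ℓ).toRingHom.IsIntegral)
  (hβ : (heckeBetaBar (AlgebraicClosure ℚ) N ℓ).toRingHom.IsIntegral)
  [HasPrincipalDivisors (AlgebraicClosure ℚ) ↥(modularFunctionFieldBar (N * ℓ))]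

/-- the Hecke correspondence on divisors (`= heckeDivBar`). -/
noncomputable def S37_Td : Divisor (AlgebraicClosure ℚ) ↥(modularFunctionFieldBar N) →+
    Divisor (AlgebraicClosure ℚ) ↥(modularFunctionFieldBar N) :=
  Divisor.correspondence (heckeBetaBar (AlgebraicClosure ℚ) N ℓ)
    (heckeAlphaBar (AlgebraicClosure ℚ) N ℓ) hβ hα

theorem S37_Td_apply (D : Divisor (AlgebraicClosure ℚ) ↥(modularFunctionFieldBar N)) :
    S37_Td hα hβ D = Divisor.pushforwardAlong (heckeAlphaBar (AlgebraicClosure ℚ) N ℓ) hα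
      (Divisor.pullbackAlong (heckeBetaBar (AlgebraicClosure ℚ) N ℓ) hβ D) := rfl

/-- `T (div f) = div (t f)`. -/
theorem S37_Td_div (hfin : FiniteAlong (AlgebraicClosure ℚ) (heckeAlphaBar (AlgebraicClosure ℚ) N ℓ))
    (hN : NormFormulaAlong (AlgebraicClosure ℚ) (heckeAlphaBar (AlgebraicClosure ℚ) N ℓ) hfin)
    (f : ↥(modularFunctionFieldBar N)) (hf : f ≠ 0) :
    S37_Td hα hβ (ES_div N f) = ES_div N (S37_t N ℓ f) := by
  ext v
  rw [ES_div_apply, S37_Td_apply]
  have h1 : ∀ w : Place (AlgebraicClosure ℚ) ↥(modularFunctionFieldBar (N * ℓ)),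
      Divisor.pullbackAlong (heckeBetaBar (AlgebraicClosure ℚ) N ℓ) hβ (ES_div N f) w =
        w.ord (heckeBetaBar (AlgebraicClosure ℚ) N ℓ f) := by
    intro w
    letI := algebraAlong (heckeBetaBar (AlgebraicClosure ℚ) N ℓ)
    haveI := isScalarTower_along (heckeBetaBar (AlgebraicClosure ℚ) N ℓ)
    haveI := isIntegral_along (heckeBetaBar (AlgebraicClosure ℚ) N ℓ) hβ
    exact Divisor.pullback_apply_eq_ord (fun v => ES_div_apply N f v) w
  have hβf : heckeBetaBar (AlgebraicClosure ℚ) N ℓ f ≠ 0 := by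
    intro h0
    exact hf ((map_eq_zero _).1 h0)
  letI := algebraAlong (heckeAlphaBar (AlgebraicClosure ℚ) N ℓ)
  haveI := isScalarTower_along (heckeAlphaBar (AlgebraicClosure ℚ) N ℓ)
  haveI : Module.Finite ↥(modularFunctionFieldBar N) ↥(modularFunctionFieldBar (N * ℓ)) := hfin
  exact hN _ hβf _ h1 v

theorem S37_pullback_nonneg {D : Divisor (AlgebraicClosure ℚ) ↥(modularFunctionFieldBar N)}
    (hD : 0 ≤ D) :
    0 ≤ Divisor.pullbackAlong (heckeBetaBar (AlgebraicClosure ℚ) N ℓ) hβ D := by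
  rw [Finsupp.le_def]
  intro w
  rw [Divisor.pullbackAlong_apply, Finsupp.zero_apply]
  exact mul_nonneg (by positivity) (Finsupp.le_def.1 hD _)

theorem S37_pushforward_nonneg
    {D : Divisor (AlgebraicClosure ℚ) ↥(modularFunctionFieldBar (N * ℓ))} (hD : 0 ≤ D) :
    0 ≤ Divisor.pushforwardAlong (heckeAlphaBar (AlgebraicClosure ℚ) N ℓ) hα D := by
  classical
  conv_rhs => rw [← Finsupp.sum_single D]
  rw [Finsupp.sum, map_sum]
  refine Finset.sum_nonneg fun w _ => ?_
  rw [Divisor.pushforwardAlong_single, Finsupp.le_def]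
  intro v
  rw [Finsupp.zero_apply, Finsupp.single_apply]
  split_ifs
  · exact mul_nonneg (Finsupp.le_def.1 hD w) (by positivity)
  · exact le_rfl

theorem S37_Td_nonneg {D : Divisor (AlgebraicClosure ℚ) ↥(modularFunctionFieldBar N)}
    (hD : 0 ≤ D) : 0 ≤ S37_Td hα hβ D := by
  rw [S37_Td_apply]
  exact S37_pushforward_nonneg hα (S37_pullback_nonneg hβ hD)

end Hecke

section Red

variable {N}
variable {A : ValuationSubring (AlgebraicClosure ℚ)} (h : ReductionInputsModL A N)

/-- bounds for the coefficients of `r_* E`, `E ≥ 0`. -/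
theorem S37_rdiv_bound {E : Divisor (AlgebraicClosure ℚ) ↥(modularFunctionFieldBar N)}
    (hE : 0 ≤ E)
    (Q : Place (IsLocalRing.ResidueField A)
      ↥(modularFunctionFieldFullC (IsLocalRing.ResidueField A) N)) :
    0 ≤ Finsupp.mapDomain (placeReductionModL h) E Q ∧
      Finsupp.mapDomain (placeReductionModL h) E Q ≤ E.degree := by
  refine ⟨Finsupp.le_def.1 (S37_mapDomain_nonneg _ hE) Q, ?_⟩
  rw [RR_degree_eq_sum (S37_hRR N).deg_one]
  exact S37_mapDomain_apply_le _ hE Q

/-- the reduction of a class whose reduced divisor vanishes. -/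
theorem S37_red_eq_zero (D : Divisor.degZero (K := AlgebraicClosure ℚ)
      (F := ↥(modularFunctionFieldBar N)))
    (h0 : Finsupp.mapDomain (placeReductionModL h)
      (D : Divisor (AlgebraicClosure ℚ) ↥(modularFunctionFieldBar N)) = 0) :
    reductionModL A N (Pic0.mk D) = 0 := by
  rw [reductionModL_mk h D]
  have : reductionDegZeroAlong (placeReductionModL h)
      (isPlaceReductionModL_placeReductionModL h).1 D = 0 := Subtype.ext h0
  rw [this]
  rfl

/-- inertia: `r_* (τ D) = r_* D` on divisors of degree `0`. -/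
theorem S37_key_inertia (τ : AlgebraicClosure ℚ ≃ₐ[ℚ] AlgebraicClosure ℚ)
    (hτ : τ ∈ A.inertiaSubgroupIn ℚ)
    (D : Divisor (AlgebraicClosure ℚ) ↥(modularFunctionFieldBar N)) (hD : D.degree = 0) :
    Finsupp.mapDomain (placeReductionModL h)
      (arithmeticGalois (modularFunctionFieldFull N) τ • D) =
      Finsupp.mapDomain (placeReductionModL h) D := by
  set g := arithmeticGalois (modularFunctionFieldFull N) τ with hg
  set Ψ : Divisor (AlgebraicClosure ℚ) ↥(modularFunctionFieldBar N) →+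
      Divisor (IsLocalRing.ResidueField A)
        ↥(modularFunctionFieldFullC (IsLocalRing.ResidueField A) N) :=
    (Finsupp.mapDomain.addMonoidHom (placeReductionModL h)).comp
      (DistribSMul.toAddMonoidHom _ g - AddMonoidHom.id _) with hΨ
  have hΨa : ∀ E, Ψ E = Finsupp.mapDomain (placeReductionModL h) (g • E) -
      Finsupp.mapDomain (placeReductionModL h) E := fun E => by
    show Finsupp.mapDomain (placeReductionModL h) (g • E - E) = _
    rw [Finsupp.mapDomain_sub]
  have key := S37_trick (S37_hRR N) Ψ 1 (fun f hf => ?_) (fun E hE Q => ?_) D hD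
  · rw [hΨa, sub_eq_zero] at key
    exact key
  · rw [hΨa, S37_RR_div_eq, S37_div_smul, sub_eq_zero]
    exact ES_inertia_rdiv N A h τ hτ f hf
  · rw [hΨa, Finsupp.sub_apply, one_mul]
    have hgE : 0 ≤ g • E := by
      rw [SemilinearAut.divisor_smul_def]
      exact S37_mapDomain_nonneg _ hE
    have h1 := S37_rdiv_bound h hgE Q
    have h2 := S37_rdiv_bound h hE Q
    rw [SemilinearAut.degree_smul] at h1
    rw [abs_le]
    constructor <;> linarith [h1.1, h1.2, h2.1, h2.2]

end Red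

section Frob

variable {N}
variable {A : ValuationSubring (AlgebraicClosure ℚ)} (h : ReductionInputsModL A N)
variable {ℓ : ℕ} [NeZero ℓ]
variable (hα : (heckeAlphaBar (AlgebraicClosure ℚ) N ℓ).toRingHom.IsIntegral)
  (hβ : (heckeBetaBar (AlgebraicClosure ℚ) N ℓ).toRingHom.IsIntegral)
  [HasPrincipalDivisors (AlgebraicClosure ℚ) ↥(modularFunctionFieldBar (N * ℓ))]

/-- Frobenius: `r_* (T D) = r_* (σ D) + ℓ r_* (σ⁻¹ D)` on divisors of degree `0`. -/
theorem S37_key_frob (hℓ : ℓ.Prime) (hA : A.LiesOverPrime ℓ)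
    (hFI : FundamentalIdentityAlong (AlgebraicClosure ℚ) (heckeBetaBar (AlgebraicClosure ℚ) N ℓ) hβ)
    (hfin : FiniteAlong (AlgebraicClosure ℚ) (heckeAlphaBar (AlgebraicClosure ℚ) N ℓ))
    (hN : NormFormulaAlong (AlgebraicClosure ℚ) (heckeAlphaBar (AlgebraicClosure ℚ) N ℓ) hfin)
    (ζ : (AlgebraicClosure ℚ)ˣ) (hζ : ζ ^ ℓ = 1)
    (hH1 : ∀ f : ↥(modularFunctionFieldBar N), f ≠ 0 →
      qExpand (AlgebraicClosure ℚ) ℓ (S37_t N ℓ f : LaurentSeries (AlgebraicClosure ℚ)) =
        ES_rhs ℓ ζ (f : LaurentSeries (AlgebraicClosure ℚ)))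
    (σ : AlgebraicClosure ℚ ≃ₐ[ℚ] AlgebraicClosure ℚ) (hσ : A.IsFrobeniusAt σ ℓ)
    (D : Divisor (AlgebraicClosure ℚ) ↥(modularFunctionFieldBar N)) (hD : D.degree = 0) :
    Finsupp.mapDomain (placeReductionModL h) (S37_Td hα hβ D) =
      Finsupp.mapDomain (placeReductionModL h)
          (arithmeticGalois (modularFunctionFieldFull N) σ • D) +
        ℓ • Finsupp.mapDomain (placeReductionModL h)
          ((arithmeticGalois (modularFunctionFieldFull N) σ)⁻¹ • D) := by
  set g := arithmeticGalois (modularFunctionFieldFull N) σ with hg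
  have hginv : g⁻¹ = arithmeticGalois (modularFunctionFieldFull N) σ⁻¹ := (map_inv _ σ).symm
  set Ψ : Divisor (AlgebraicClosure ℚ) ↥(modularFunctionFieldBar N) →+
      Divisor (IsLocalRing.ResidueField A)
        ↥(modularFunctionFieldFullC (IsLocalRing.ResidueField A) N) :=
    (Finsupp.mapDomain.addMonoidHom (placeReductionModL h)).comp
      (S37_Td hα hβ - DistribSMul.toAddMonoidHom _ g
        - ℓ • DistribSMul.toAddMonoidHom _ g⁻¹) with hΨ
  have hΨa : ∀ E, Ψ E = Finsupp.mapDomain (placeReductionModL h) (S37_Td hα hβ E) -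
      Finsupp.mapDomain (placeReductionModL h) (g • E) -
      ℓ • Finsupp.mapDomain (placeReductionModL h) (g⁻¹ • E) := fun E => by
    show Finsupp.mapDomain (placeReductionModL h) (S37_Td hα hβ E - g • E - ℓ • (g⁻¹ • E)) = _
    rw [Finsupp.mapDomain_sub, Finsupp.mapDomain_sub]
    congr 1
    exact map_nsmul (Finsupp.mapDomain.addMonoidHom (placeReductionModL h)) ℓ (g⁻¹ • E)
  have key := S37_trick (S37_hRR N) Ψ
    ((finrankAlong (AlgebraicClosure ℚ) (heckeBetaBar (AlgebraicClosure ℚ) N ℓ) : ℤ) + 1 + ℓ)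
    (fun f hf => ?_) (fun E hE Q => ?_) D hD
  · rw [hΨa, sub_sub, sub_eq_zero] at key
    exact key
  · rw [hΨa, S37_RR_div_eq, S37_Td_div hα hβ hfin hN f hf, S37_div_smul, S37_div_smul, hginv,
      sub_sub, sub_eq_zero]
    have h1 := ES_frob_rdiv N ℓ hℓ A hA h σ hσ ζ hζ (S37_t N ℓ) hH1 f hf
    rw [ES_rdiv_mul N A h (ES_gal_ne_zero N _ hf)
      (pow_ne_zero _ (ES_gal_ne_zero N _ hf)), ES_rdiv_pow] at h1
    exact h1
  · rw [hΨa, Finsupp.sub_apply, Finsupp.sub_apply, Finsupp.smul_apply]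
    have hgE : 0 ≤ g • E := by
      rw [SemilinearAut.divisor_smul_def]
      exact S37_mapDomain_nonneg _ hE
    have hgE' : 0 ≤ g⁻¹ • E := by
      rw [SemilinearAut.divisor_smul_def]
      exact S37_mapDomain_nonneg _ hE
    have h1 := S37_rdiv_bound h (S37_Td_nonneg hα hβ hE) Q
    have h2 := S37_rdiv_bound h hgE Q
    have h3 := S37_rdiv_bound h hgE' Q
    have hdT : (S37_Td hα hβ E).degree =
        (finrankAlong (AlgebraicClosure ℚ) (heckeBetaBar (AlgebraicClosure ℚ) N ℓ) : ℤ)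
          * E.degree :=
      Divisor.degree_correspondence _ _ hβ hα hFI E
    rw [hdT] at h1
    rw [SemilinearAut.degree_smul] at h2 h3
    have hE0 : 0 ≤ E.degree := RR_degree_nonneg (S37_hRR N).deg_one hE
    have hℓ0 : (0 : ℤ) ≤ (ℓ : ℤ) := by positivity
    have h4 : (ℓ : ℤ) * Finsupp.mapDomain (placeReductionModL h) (g⁻¹ • E) Q ≤ ℓ * E.degree :=
      mul_le_mul_of_nonneg_left h3.2 hℓ0
    have h5 : 0 ≤ (ℓ : ℤ) * Finsupp.mapDomain (placeReductionModL h) (g⁻¹ • E) Q :=
      mul_nonneg hℓ0 h3.1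
    have h6 : 0 ≤ (finrankAlong (AlgebraicClosure ℚ) (heckeBetaBar (AlgebraicClosure ℚ) N ℓ) : ℤ)
        * E.degree := mul_nonneg (by positivity) hE0
    rw [nsmul_eq_mul, abs_le]
    constructor
    · nlinarith [h1.1, h1.2, h2.1, h2.2]
    · nlinarith [h1.1, h1.2, h2.1, h2.2]

end Frob

end Fermat.Agent.S37
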