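import Fermat.Agent.S18.RiDescNorm
import Fermat.Agent.S18.Reduce
import Fermat.Prelude.Def_ModularCurve_HeckeOperatorTotal

/-!
# S37, package HECKE-P (helper10): the inputs of the Prelude's Hecke operator on `J₀(N)`

`S37_heckeInputs N ℓ : ModularCurve.HeckeInputsAlong ℚ̄ N ℓ`, i.e. for the two degeneracy maps
`α` (inclusion `F_N ⊂ F_{Nℓ}`) and `β` (`f ↦ f(q^ℓ)`):

* `α`, `β` are integral and finite (`S37P_finiteAlong_alpha`, `S37P_finiteAlong_beta`);
* `F_{Nℓ}` has principal divisors (`S18_hPD (N * ℓ)`);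
* the fundamental identity `Σ_{w ∣ v} e(w ∣ v) = [F_{Nℓ} : F_N]` along `β`
  (`RID_fundamentalIdentityAlong`);
* the norm formula `α_* (div f) = div (N f)` along `α` (`RID_normFormulaAlong`).

No hypothesis on `N`, `ℓ` beyond `NeZero` is needed.
-/

set_option autoImplicit false
set_option linter.style.haveILetI false
set_option synthInstance.maxHeartbeats 400000
set_option maxHeartbeats 1000000

open IntermediateField AlgebraicCurve ModularCurve

namespace Fermat.Agent.S37

open Fermat.Agent.S18 Fermat.Agent.S24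

section generic

variable {K F F' : Type*} [Field K] [Field F] [Field F'] [Algebra K F] [Algebra K F']

/-- If `F'` is finite over `K(φ x)`, then it is finite along `φ`. -/
theorem S37P_finiteAlong (φ : F →ₐ[K] F') (x : F) [FiniteDimensional K⟮φ x⟯ F'] :
    FiniteAlong K φ := by
  letI := algebraAlong φ
  haveI := isScalarTower_along φ
  show Module.Finite F F'
  obtain ⟨s, hs⟩ := (Module.finite_def (R := K⟮φ x⟯) (M := F')).mp inferInstance
  refine ⟨⟨s, ?_⟩⟩
  rw [eq_top_iff]
  intro y _
  have hy : y ∈ Submodule.span K⟮φ x⟯ (s : Set F') := by rw [hs]; trivial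
  induction hy using Submodule.span_induction with
  | mem z hz => exact Submodule.subset_span hz
  | zero => exact zero_mem _
  | add a b _ _ ha hb => exact add_mem (ha trivial) (hb trivial)
  | smul c a _ ha =>
    -- `c ∈ K(φ x) ⊆ φ(F)`
    have hc : (c : F') ∈ (φ.fieldRange : IntermediateField K F') := by
      have hle : K⟮φ x⟯ ≤ φ.fieldRange := by
        rw [IntermediateField.adjoin_le_iff]
        rintro _ rfl
        exact ⟨x, rfl⟩
      exact hle c.2
    obtain ⟨d, hd⟩ := hc
    have : c • a = d • a := by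
      rw [Algebra.smul_def, Algebra.smul_def]
      congr 1
      exact hd.symm
    rw [this]
    exact Submodule.smul_mem _ d (ha trivial)

/-- finite along `φ` implies integral. -/
theorem S37P_isIntegral_of_finiteAlong (φ : F →ₐ[K] F') (h : FiniteAlong K φ) :
    φ.toRingHom.IsIntegral := by
  letI := algebraAlong φ
  haveI : Module.Finite F F' := h
  exact fun y => Algebra.IsIntegral.isIntegral (R := F) y

end generic

section concrete

variable (N ℓ : ℕ) [NeZero N] [NeZero ℓ]

local notation "Kb" => AlgebraicClosure ℚ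

/-- `F_{Nℓ}` is finite over `F_N` along the inclusion `α`. -/
theorem S37P_finiteAlong_alpha : FiniteAlong Kb (heckeAlphaBar Kb N ℓ) := by
  have h1 : heckeAlphaBar Kb N ℓ (jB N) = jB (N * ℓ) := Subtype.ext rfl
  haveI : FiniteDimensional Kb⟮heckeAlphaBar Kb N ℓ (jB N)⟯ ↥(modularFunctionFieldBar (N * ℓ)) := by
    rw [h1]; exact finiteDimensional_jB (N * ℓ)
  exact S37P_finiteAlong (heckeAlphaBar Kb N ℓ) (jB N)

/-- `F_{Nℓ}` is finite over `F_N` along `β : f ↦ f(q^ℓ)`. -/
theorem S37P_finiteAlong_beta : FiniteAlong Kb (heckeBetaBar Kb N ℓ) := by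
  have ht : Transcendental Kb (heckeBetaBar Kb N ℓ (jB N)) := by
    intro h
    exact transcendental_jB N
      ((isAlgebraic_algHom_iff (heckeBetaBar Kb N ℓ) (heckeBetaBar Kb N ℓ).injective).mp h)
  haveI : FiniteDimensional Kb⟮heckeBetaBar Kb N ℓ (jB N)⟯ ↥(modularFunctionFieldBar (N * ℓ)) :=
    BL_finite_of_transcendental (finiteDimensional_jB (N * ℓ)) ht
  exact S37P_finiteAlong (heckeBetaBar Kb N ℓ) (jB N)

theorem S37P_alpha_integral : HeckeAlphaBarIntegral Kb N ℓ :=
  S37P_isIntegral_of_finiteAlong _ (S37P_finiteAlong_alpha N ℓ)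

theorem S37P_beta_integral : HeckeBetaBarIntegral Kb N ℓ :=
  S37P_isIntegral_of_finiteAlong _ (S37P_finiteAlong_beta N ℓ)

/-- `F_{Nℓ}` is a function field of one variable over `ℚ̄`. -/
theorem S37P_isFunctionField1 : S24_IsFunctionField1 Kb ↥(modularFunctionFieldBar N) :=
  haveI := finiteDimensional_jB N
  S24_isFunctionField1_of_isAlgebraic (jB N) (Algebra.IsAlgebraic.of_finite _ _)

/-- the fundamental identity along `β`. -/
theorem S37P_fundamentalIdentity_beta :
    haveI := S18_hPD (N * ℓ)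
    FundamentalIdentityAlong Kb (heckeBetaBar Kb N ℓ) (S37P_beta_integral N ℓ) := by
  haveI := S18_hPD (N * ℓ)
  haveI := finiteDimensional_jB N
  exact RID_fundamentalIdentityAlong (heckeBetaBar Kb N ℓ) (S37P_beta_integral N ℓ)
    (S37P_finiteAlong_beta N ℓ) (S37P_isFunctionField1 (N * ℓ)) (transcendental_jB N)

/-- the fundamental identity along `α`. -/
theorem S37P_fundamentalIdentity_alpha :
    haveI := S18_hPD (N * ℓ)
    FundamentalIdentityAlong Kb (heckeAlphaBar Kb N ℓ) (S37P_alpha_integral N ℓ) := by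
  haveI := S18_hPD (N * ℓ)
  haveI := finiteDimensional_jB N
  exact RID_fundamentalIdentityAlong (heckeAlphaBar Kb N ℓ) (S37P_alpha_integral N ℓ)
    (S37P_finiteAlong_alpha N ℓ) (S37P_isFunctionField1 (N * ℓ)) (transcendental_jB N)

/-- the norm formula along `α`. -/
theorem S37P_normFormula_alpha :
    haveI := S18_hPD (N * ℓ)
    NormFormulaAlong Kb (heckeAlphaBar Kb N ℓ) (S37P_finiteAlong_alpha N ℓ) := by
  haveI := S18_hPD (N * ℓ)
  haveI := finiteDimensional_jB N
  exact RID_normFormulaAlong (heckeAlphaBar Kb N ℓ)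
    (S37P_finiteAlong_alpha N ℓ) (S37P_isFunctionField1 (N * ℓ)) (transcendental_jB N)

/-- the norm formula along `β`. -/
theorem S37P_normFormula_beta :
    haveI := S18_hPD (N * ℓ)
    NormFormulaAlong Kb (heckeBetaBar Kb N ℓ) (S37P_finiteAlong_beta N ℓ) := by
  haveI := S18_hPD (N * ℓ)
  haveI := finiteDimensional_jB N
  exact RID_normFormulaAlong (heckeBetaBar Kb N ℓ)
    (S37P_finiteAlong_beta N ℓ) (S37P_isFunctionField1 (N * ℓ)) (transcendental_jB N)

/-- **HECKE-P**: the inputs of the Prelude's Hecke operator `T_ℓ = α_* β^*` on `J₀(N)`. -/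
theorem S37_heckeInputs : HeckeInputsAlong Kb N ℓ :=
  ⟨S37P_alpha_integral N ℓ, S37P_beta_integral N ℓ, S18_hPD (N * ℓ), S37P_finiteAlong_alpha N ℓ,
    S37P_fundamentalIdentity_beta N ℓ, S37P_normFormula_alpha N ℓ⟩

/-- the transposed inputs (for `heckePic0BarTranspose = β_* α^*`). -/
theorem S37_heckeInputs_transpose :
    haveI := S18_hPD (N * ℓ)
    FundamentalIdentityAlong Kb (heckeAlphaBar Kb N ℓ) (S37P_alpha_integral N ℓ) ∧
      NormFormulaAlong Kb (heckeBetaBar Kb N ℓ) (S37P_finiteAlong_beta N ℓ) :=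
  ⟨S37P_fundamentalIdentity_alpha N ℓ, S37P_normFormula_beta N ℓ⟩

end concrete

end Fermat.Agent.S37
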