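import Mathlib
import Fermat.Agent.S37.Glue
import Fermat.Agent.S37.HeckeP
import Fermat.Agent.S18.RiMain

/-!
# S37: `SpecializationExists` for `J₀(N)` from S18 and the `q`-expansion formula (H1)

* `S37_red_hecke`: `φ (T_ℓ y) = φ (σ y) + ℓ φ (σ⁻¹ y)` for ALL `y ∈ J₀(N)`, `φ = reductionModL`;
* `S37_red_inertia`: `φ (τ y) = φ y`;
* `S37_main_of`: the frozen statement S37 from the statement of S18 and `S37_H1Stmt`.
-/

set_option autoImplicit false
set_option synthInstance.maxHeartbeats 400000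
set_option maxHeartbeats 1000000
set_option linter.unusedSectionVars false
set_option linter.style.haveILetI false

open HahnSeries IntermediateField AlgebraicCurve ModularCurve

namespace Fermat.Agent.S37

open Fermat.Agent.S18 Fermat.Agent.Lib Fermat.Agent.GalRep

variable {N : ℕ} [NeZero N]
variable {A : ValuationSubring (AlgebraicClosure ℚ)} (h : ReductionInputsModL A N)

/-- the reduction of a class. -/
theorem S37_red_mk (D : Divisor.degZero (K := AlgebraicClosure ℚ)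
      (F := ↥(modularFunctionFieldBar N))) :
    reductionModL A N (Pic0.mk D) = Pic0.mk (reductionDegZeroAlong (placeReductionModL h)
      (isPlaceReductionModL_placeReductionModL h).1 D) :=
  reductionModL_mk h D

/-- the Galois action on a class. -/
theorem S37_smul_mk (σ : AlgebraicClosure ℚ ≃ₐ[ℚ] AlgebraicClosure ℚ)
    (D : Divisor.degZero (K := AlgebraicClosure ℚ) (F := ↥(modularFunctionFieldBar N))) :
    σ • (Pic0.mk D : JZero N) =
      Pic0.mk (SemilinearAut.degZeroSMulHom (arithmeticGalois (modularFunctionFieldFull N) σ) D) :=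
  rfl

include h in
/-- inertia acts trivially after reduction, on ALL of `J₀(N)`. -/
theorem S37_red_inertia (τ : AlgebraicClosure ℚ ≃ₐ[ℚ] AlgebraicClosure ℚ)
    (hτ : τ ∈ A.inertiaSubgroupIn ℚ) (y : JZero N) :
    reductionModL A N (τ • y) = reductionModL A N y := by
  obtain ⟨D, rfl⟩ := Pic0.mk_surjective y
  rw [S37_smul_mk, S37_red_mk h, S37_red_mk h]
  refine congrArg Pic0.mk (Subtype.ext ?_)
  rw [coe_reductionDegZeroAlong, coe_reductionDegZeroAlong, SemilinearAut.coe_degZeroSMulHom]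
  exact S37_key_inertia h τ hτ _ (Divisor.mem_degZero.1 D.2)

variable {ℓ : ℕ} [NeZero ℓ]

include h in
/-- Eichler–Shimura after reduction, on ALL of `J₀(N)`. -/
theorem S37_red_hecke (hℓ : ℓ.Prime) (hA : A.LiesOverPrime ℓ) (hH1 : S37_H1Stmt N ℓ)
    (σ : AlgebraicClosure ℚ ≃ₐ[ℚ] AlgebraicClosure ℚ) (hσ : A.IsFrobeniusAt σ ℓ) (y : JZero N) :
    reductionModL A N (heckeOperatorAlong (AlgebraicClosure ℚ) N ℓ y) =
      reductionModL A N (σ • y) + ℓ • reductionModL A N (σ⁻¹ • y) := by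
  obtain ⟨ζ, hζ, hH⟩ := hH1
  haveI := S18_hPD (N * ℓ)
  have hα : (heckeAlphaBar (AlgebraicClosure ℚ) N ℓ).toRingHom.IsIntegral :=
    S37P_alpha_integral N ℓ
  have hβ : (heckeBetaBar (AlgebraicClosure ℚ) N ℓ).toRingHom.IsIntegral :=
    S37P_beta_integral N ℓ
  have hFI := S37P_fundamentalIdentity_beta N ℓ
  have hfin := S37P_finiteAlong_alpha N ℓ
  have hN := S37P_normFormula_alpha N ℓ
  rw [heckeOperatorAlong_eq hα hβ hFI hfin hN]
  obtain ⟨D, rfl⟩ := Pic0.mk_surjective y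
  have hT : heckePic0Bar hα hβ hFI hfin hN (Pic0.mk D) =
      Pic0.mk (Pic0.degZeroCorrespondence (heckeBetaBar (AlgebraicClosure ℚ) N ℓ)
        (heckeAlphaBar (AlgebraicClosure ℚ) N ℓ) hβ hα hFI D) := rfl
  rw [hT, S37_smul_mk, S37_smul_mk, S37_red_mk h, S37_red_mk h, S37_red_mk h]
  have key := S37_key_frob h hα hβ hℓ hA hFI hfin hN ζ hζ hH σ hσ
    (D : Divisor (AlgebraicClosure ℚ) ↥(modularFunctionFieldBar N)) (Divisor.mem_degZero.1 D.2)
  have e : reductionDegZeroAlong (placeReductionModL h)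
      (isPlaceReductionModL_placeReductionModL h).1
        (Pic0.degZeroCorrespondence (heckeBetaBar (AlgebraicClosure ℚ) N ℓ)
          (heckeAlphaBar (AlgebraicClosure ℚ) N ℓ) hβ hα hFI D) =
      reductionDegZeroAlong (placeReductionModL h) (isPlaceReductionModL_placeReductionModL h).1
        (SemilinearAut.degZeroSMulHom (arithmeticGalois (modularFunctionFieldFull N) σ) D) +
      ℓ • reductionDegZeroAlong (placeReductionModL h)
        (isPlaceReductionModL_placeReductionModL h).1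
        (SemilinearAut.degZeroSMulHom (arithmeticGalois (modularFunctionFieldFull N) σ⁻¹) D) := by
    refine Subtype.ext ?_
    rw [AddSubgroup.coe_add, AddSubgroup.coe_nsmul, coe_reductionDegZeroAlong,
      coe_reductionDegZeroAlong, coe_reductionDegZeroAlong, SemilinearAut.coe_degZeroSMulHom,
      SemilinearAut.coe_degZeroSMulHom, map_inv]
    exact key
  rw [e]
  rfl

/-- **S37** from the statement of S18 and the `q`-expansion formula (H1). -/
theorem S37_main_of (N p : ℕ) [NeZero N] (hcomm : HeckeOperatorsCommuteBar N)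
    (hS18 : ∀ {ℓ : ℕ} [Fact ℓ.Prime], ¬ ℓ ∣ N → ∀ A : ValuationSubring (AlgebraicClosure ℚ),
      A.LiesOverPrime ℓ → ReductionInputsModL A N → ∀ m : ℕ, ¬ ℓ ∣ m → ∀ z : JZero N,
        m • z = 0 → reductionModL A N z = 0 → z = 0)
    (hH1 : ∀ (ℓ : ℕ) [NeZero ℓ], ℓ.Prime → ¬ ℓ ∣ N → S37_H1Stmt N ℓ) :
    letI := heckeModuleBar N
    ∀ (_ : SMulCommClass (AlgebraicClosure ℚ ≃ₐ[ℚ] AlgebraicClosure ℚ) HeckeAlg (JZero N)),
      SpecializationExists (K := ℚ) (L := AlgebraicClosure ℚ) N p (JZero N) := by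
  letI := heckeModuleBar N
  intro hsmul ℓ hℓ hℓNp A hA
  haveI : NeZero ℓ := ⟨hℓ.ne_zero⟩
  haveI : Fact ℓ.Prime := ⟨hℓ⟩
  have hℓN : ¬ ℓ ∣ N := fun hd => hℓNp (Dvd.dvd.mul_right hd p)
  have hℓp : ¬ ℓ ∣ p := fun hd => hℓNp (Dvd.dvd.mul_left hd N)
  have h := RI_main N A hℓ hA hℓN
  refine S37_exists_of_map (K := ℚ) (φ := reductionModL A N) p ℓ hℓ ?_ ?_ ?_
  · intro τ hτ x
    exact S37_red_inertia h τ hτ x
  · intro σ hσ x
    have e : heckeGen ⟨ℓ, hℓ⟩ • σ • x =
        heckeOperatorAlong (AlgebraicClosure ℚ) N ℓ (σ • x) :=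
      heckeModuleBar_heckeGen_smul hcomm ⟨ℓ, hℓ⟩ (σ • x)
    rw [e, map_add, map_sub, S37_red_hecke h hℓ hA (hH1 ℓ hℓ hℓN) σ hσ (σ • x), inv_smul_smul,
      map_nsmul]
    abel
  · rintro x ⟨n, hn⟩ h0
    exact hS18 hℓN A hA h (p ^ n) (fun hd => hℓp (hℓ.dvd_of_dvd_pow hd)) x hn h0

end Fermat.Agent.S37
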