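import Fermat.Agent.GalRep.HeckeDeg
import Fermat.Prelude.Def_ModularCurve_HeckeOperatorTotal

/-!
# S37, package HECKE-P (helper10): the degree of `F_{Nℓ}` over `F_N` along `α`

`α = heckeAlphaBar ℚ̄ N ℓ` (the inclusion `F_N ⊂ F_{Nℓ}`).  From helper2's DEG
(`GRHF_finrank_betaRange`, `GRHF_finrank_betaRange_eq`):

* `S37P_finrank_alphaRange hℓ : [F_{Nℓ} : α F_N] = if ℓ ∣ N then ℓ else ℓ + 1`;
* `S37P_finrank_alpha' hℓ`: the same for `F_{Nℓ}` as an `F_N`-algebra via `algebraAlong α`;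
* `S37P_finrank_alpha hℓ hℓN : ... = ℓ + 1` (`ℓ ∤ N`), and the Prelude form
  `S37P_finrankAlong_alpha hℓ hℓN : finrankAlong ℚ̄ α = ℓ + 1`.
-/

set_option autoImplicit false
set_option linter.style.haveILetI false
set_option synthInstance.maxHeartbeats 400000
set_option maxHeartbeats 1000000

open IntermediateField AlgebraicCurve ModularCurve

namespace Fermat.Agent.S37

open Fermat.Agent.GalRep

variable (N ℓ : ℕ) [NeZero N] [NeZero ℓ]

/-- `[F_{Nℓ} : α F_N] = ℓ + 1` if `ℓ ∤ N`, `= ℓ` if `ℓ ∣ N` (`ℓ` prime). -/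
theorem S37P_finrank_alphaRange (hℓ : ℓ.Prime) :
    Module.finrank ↥(heckeAlphaBar (AlgebraicClosure ℚ) N ℓ).fieldRange
        ↥(modularFunctionFieldBar (N * ℓ)) = if ℓ ∣ N then ℓ else ℓ + 1 := by
  rw [← GRHF_finrank_betaRange_eq, GRHF_finrank_betaRange N ℓ hℓ]

/-- the degree of `F_{Nℓ}` as an `F_N`-algebra via `α`. -/
theorem S37P_finrank_alpha' (hℓ : ℓ.Prime) :
    letI := algebraAlong (heckeAlphaBar (AlgebraicClosure ℚ) N ℓ)
    Module.finrank ↥(modularFunctionFieldBar N) ↥(modularFunctionFieldBar (N * ℓ)) =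
      if ℓ ∣ N then ℓ else ℓ + 1 := by
  letI := algebraAlong (heckeAlphaBar (AlgebraicClosure ℚ) N ℓ)
  rw [← S37P_finrank_alphaRange N ℓ hℓ]
  exact Algebra.finrank_eq_of_equiv_equiv
    (AlgEquiv.ofInjectiveField (heckeAlphaBar (AlgebraicClosure ℚ) N ℓ)).toRingEquiv
    (RingEquiv.refl _) rfl

/-- `[F_{Nℓ} : F_N] = ℓ + 1` along `α`, for `ℓ ∤ N` prime. -/
theorem S37P_finrank_alpha (hℓ : ℓ.Prime) (hℓN : ¬ ℓ ∣ N) :
    letI := algebraAlong (heckeAlphaBar (AlgebraicClosure ℚ) N ℓ)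
    Module.finrank ↥(modularFunctionFieldBar N) ↥(modularFunctionFieldBar (N * ℓ)) = ℓ + 1 := by
  letI := algebraAlong (heckeAlphaBar (AlgebraicClosure ℚ) N ℓ)
  have h := S37P_finrank_alpha' N ℓ hℓ
  rw [if_neg hℓN] at h
  exact h

/-- the same with explicit instance (no `letI` in the statement). -/
theorem S37P_finrank_alpha_explicit (hℓ : ℓ.Prime) (hℓN : ¬ ℓ ∣ N) :
    @Module.finrank ↥(modularFunctionFieldBar N) ↥(modularFunctionFieldBar (N * ℓ)) _ _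
        ((heckeAlphaBar (AlgebraicClosure ℚ) N ℓ).toRingHom.toAlgebra.toModule) = ℓ + 1 :=
  S37P_finrank_alpha N ℓ hℓ hℓN

/-- Prelude form. -/
theorem S37P_finrankAlong_alpha (hℓ : ℓ.Prime) (hℓN : ¬ ℓ ∣ N) :
    finrankAlong (AlgebraicClosure ℚ) (heckeAlphaBar (AlgebraicClosure ℚ) N ℓ) = ℓ + 1 :=
  S37P_finrank_alpha N ℓ hℓ hℓN

/-- Prelude form, along `β`. -/
theorem S37P_finrankAlong_beta (hℓ : ℓ.Prime) (hℓN : ¬ ℓ ∣ N) :
    finrankAlong (AlgebraicClosure ℚ) (heckeBetaBar (AlgebraicClosure ℚ) N ℓ) = ℓ + 1 := by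
  have h := GRHF_finrank_beta N ℓ hℓ
  rw [if_neg hℓN] at h
  exact h

end Fermat.Agent.S37
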