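import Mathlib
import Fermat.Agent.S37.Defs
import Fermat.Agent.S37.FinrankAlpha
import Fermat.Agent.GalRep.HeckeStab

/-!
# S37, package (B): the `q`-expansion formula (H1) for `t f = Norm_{F_{Nℓ}/α F_N} (β f)`

`α` = inclusion `F_N ⊂ F_{Nℓ}`, `β f = f(q^ℓ)`, `V = qExpand ℓ`, `ℓ ∤ N` prime,
`E = ℚ̄((q))`, `ι = V² : F_N → E`, `k₂ = ι(F_N) ⊂ E`, `e : F_N ≃ k₂`.  `F_{Nℓ}` is a `k₂`-algebra
via `α ∘ e⁻¹`.  The `ℓ + 1` embeddings of `F_{Nℓ}` into `E` over `k₂` are `V²` and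
`tw_{u^i} ∘ φ_∞` (`i < ℓ`, `u` a primitive `ℓ²`-th root of unity, `φ_∞` helper2's `GRHP_phiInf`).
Hence (norm = product over the embeddings)
`V² (t f) = V³ f · ∏_i V (f(ζ^i q)) = V (ES_rhs ℓ ζ f)`, `ζ = u^ℓ`.
-/

set_option autoImplicit false
set_option synthInstance.maxHeartbeats 400000
set_option maxHeartbeats 1000000
set_option linter.unusedSectionVars false

open ModularCurve IntermediateField AlgebraicCurve

noncomputable section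

namespace Fermat.Agent.S37

open Fermat.Agent.S24 Fermat.Agent.GalRep

/-- `tw_u ∘ V = V ∘ tw_{u^ℓ}`. -/
theorem S37H_tw_qExpand {R : Type*} [CommRing R] (ℓ : ℕ) [NeZero ℓ] (u : Rˣ)
    (f : LaurentSeries R) : ES_tw u (qExpand R ℓ f) = qExpand R ℓ (ES_tw (u ^ ℓ) f) := by
  ext n
  rw [ES_tw_coeff]
  by_cases hn : (ℓ : ℤ) ∣ n
  · obtain ⟨m, rfl⟩ := hn
    rw [qExpand_coeff_mul, qExpand_coeff_mul, ES_tw_coeff, zpow_mul, zpow_natCast]
  · rw [qExpand_coeff_of_not_dvd ℓ f hn, qExpand_coeff_of_not_dvd ℓ _ hn, mul_zero]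

variable (N ℓ : ℕ) [NeZero N] [NeZero ℓ]

/-- the base embedding `ι = V² : F_N → E`. -/
def S37H_iota : ↥(modularFunctionFieldBar N) →+* LaurentSeries (AlgebraicClosure ℚ) :=
  ((qExpand (AlgebraicClosure ℚ) ℓ).comp (qExpand (AlgebraicClosure ℚ) ℓ)).comp
    (algebraMap ↥(modularFunctionFieldBar N) (LaurentSeries (AlgebraicClosure ℚ)))

theorem S37H_iota_apply (x : ↥(modularFunctionFieldBar N)) :
    S37H_iota N ℓ x = qExpand (AlgebraicClosure ℚ) ℓ (qExpand (AlgebraicClosure ℚ) ℓ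
      (x : LaurentSeries (AlgebraicClosure ℚ))) := rfl

/-- `k₂ = V²(F_N) ⊂ E`. -/
def S37H_k : Subfield (LaurentSeries (AlgebraicClosure ℚ)) := (S37H_iota N ℓ).fieldRange

/-- `e : F_N ≃ k₂`. -/
def S37H_e : ↥(modularFunctionFieldBar N) ≃+* ↥(S37H_k N ℓ) :=
  (S37H_iota N ℓ).rangeRestrictFieldEquiv

theorem S37H_coe_e (x : ↥(modularFunctionFieldBar N)) :
    ((S37H_e N ℓ x : ↥(S37H_k N ℓ)) : LaurentSeries (AlgebraicClosure ℚ)) =
      qExpand (AlgebraicClosure ℚ) ℓ (qExpand (AlgebraicClosure ℚ) ℓ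
        (x : LaurentSeries (AlgebraicClosure ℚ))) := rfl

theorem S37H_coe_e_symm (b : ↥(S37H_k N ℓ)) :
    qExpand (AlgebraicClosure ℚ) ℓ (qExpand (AlgebraicClosure ℚ) ℓ
      (((S37H_e N ℓ).symm b : ↥(modularFunctionFieldBar N)) :
        LaurentSeries (AlgebraicClosure ℚ))) = (b : LaurentSeries (AlgebraicClosure ℚ)) := by
  rw [← S37H_coe_e, RingEquiv.apply_symm_apply]

/-- `F_{Nℓ}` as a `k₂`-algebra via `α ∘ e⁻¹`. -/
@[reducible] def S37H_alg2 : Algebra ↥(S37H_k N ℓ) ↥(modularFunctionFieldBar (N * ℓ)) :=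
  ((heckeAlphaBar (AlgebraicClosure ℚ) N ℓ).toRingHom.comp (S37H_e N ℓ).symm.toRingHom).toAlgebra

attribute [local instance] S37H_alg2

theorem S37H_algebraMap2 (b : ↥(S37H_k N ℓ)) :
    algebraMap ↥(S37H_k N ℓ) ↥(modularFunctionFieldBar (N * ℓ)) b =
      heckeAlphaBar (AlgebraicClosure ℚ) N ℓ ((S37H_e N ℓ).symm b) := rfl

theorem S37H_coe_algebraMap2 (b : ↥(S37H_k N ℓ)) :
    ((algebraMap ↥(S37H_k N ℓ) ↥(modularFunctionFieldBar (N * ℓ)) b :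
        ↥(modularFunctionFieldBar (N * ℓ))) : LaurentSeries (AlgebraicClosure ℚ)) =
      (((S37H_e N ℓ).symm b : ↥(modularFunctionFieldBar N)) :
        LaurentSeries (AlgebraicClosure ℚ)) := by
  rw [S37H_algebraMap2, coe_heckeAlphaBar]

/-- the embedding `V²`. -/
def S37H_sigmaInf : ↥(modularFunctionFieldBar (N * ℓ)) →ₐ[↥(S37H_k N ℓ)]
    LaurentSeries (AlgebraicClosure ℚ) :=
  { ((qExpand (AlgebraicClosure ℚ) ℓ).comp (qExpand (AlgebraicClosure ℚ) ℓ)).comp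
      (algebraMap ↥(modularFunctionFieldBar (N * ℓ)) (LaurentSeries (AlgebraicClosure ℚ))) with
    commutes' := fun b => by
      show qExpand (AlgebraicClosure ℚ) ℓ (qExpand (AlgebraicClosure ℚ) ℓ
        ((algebraMap ↥(S37H_k N ℓ) ↥(modularFunctionFieldBar (N * ℓ)) b :
          ↥(modularFunctionFieldBar (N * ℓ))) : LaurentSeries (AlgebraicClosure ℚ))) =
        (b : LaurentSeries (AlgebraicClosure ℚ))
      rw [S37H_coe_algebraMap2, S37H_coe_e_symm] }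

theorem S37H_sigmaInf_apply (x : ↥(modularFunctionFieldBar (N * ℓ))) :
    S37H_sigmaInf N ℓ x =
      qExpand (AlgebraicClosure ℚ) ℓ (qExpand (AlgebraicClosure ℚ) ℓ
        (x : LaurentSeries (AlgebraicClosure ℚ))) := rfl


variable (y w : ℤ) (h : (ℓ : ℤ) * w - N * y = 1)

/-- the twisted embeddings `tw_u ∘ φ_∞` (`u^{ℓ²} = 1`). -/
def S37H_sigmaTw (hℓ : ℓ.Prime) (u : (AlgebraicClosure ℚ)ˣ) (hu : u ^ (ℓ * ℓ) = 1) :
    ↥(modularFunctionFieldBar (N * ℓ)) →ₐ[↥(S37H_k N ℓ)] LaurentSeries (AlgebraicClosure ℚ) :=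
  { ((ES_tw u).comp
      (algebraMap ↥(modularFunctionFieldBar (N * ℓ * ℓ)) (LaurentSeries (AlgebraicClosure ℚ)))).comp
      (GRHP_phiInf N ℓ y w h hℓ : ↥(modularFunctionFieldBar (N * ℓ)) →+*
        ↥(modularFunctionFieldBar (N * ℓ * ℓ))) with
    commutes' := fun b => by
      show ES_tw u ((GRHP_phiInf N ℓ y w h hℓ
          (algebraMap ↥(S37H_k N ℓ) ↥(modularFunctionFieldBar (N * ℓ)) b) :
            ↥(modularFunctionFieldBar (N * ℓ * ℓ))) : LaurentSeries (AlgebraicClosure ℚ)) =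
        (b : LaurentSeries (AlgebraicClosure ℚ))
      rw [S37H_algebraMap2, GRHP_coe_phiInf_alpha, qExpand_qExpand,
        GRHS_tw_qExpand (ℓ * ℓ) u hu, ← qExpand_qExpand, S37H_coe_e_symm] }

theorem S37H_sigmaTw_apply (hℓ : ℓ.Prime) (u : (AlgebraicClosure ℚ)ˣ) (hu : u ^ (ℓ * ℓ) = 1)
    (x : ↥(modularFunctionFieldBar (N * ℓ))) :
    S37H_sigmaTw N ℓ y w h hℓ u hu x =
      ES_tw u ((GRHP_phiInf N ℓ y w h hℓ x : ↥(modularFunctionFieldBar (N * ℓ * ℓ))) :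
        LaurentSeries (AlgebraicClosure ℚ)) := rfl

/-- value of `σ_∞` on `β f`: `V³ f`. -/
theorem S37H_sigmaInf_beta (f : ↥(modularFunctionFieldBar N)) :
    S37H_sigmaInf N ℓ (heckeBetaBar (AlgebraicClosure ℚ) N ℓ f) =
      qExpand (AlgebraicClosure ℚ) ℓ (qExpand (AlgebraicClosure ℚ) ℓ
        (qExpand (AlgebraicClosure ℚ) ℓ (f : LaurentSeries (AlgebraicClosure ℚ)))) := by
  rw [S37H_sigmaInf_apply, coe_heckeBetaBar]

/-- value of `tw_u ∘ φ_∞` on `β f`: `V (tw_{u^ℓ} f)`. -/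
theorem S37H_sigmaTw_beta (hℓ : ℓ.Prime) (u : (AlgebraicClosure ℚ)ˣ) (hu : u ^ (ℓ * ℓ) = 1)
    (f : ↥(modularFunctionFieldBar N)) :
    S37H_sigmaTw N ℓ y w h hℓ u hu (heckeBetaBar (AlgebraicClosure ℚ) N ℓ f) =
      qExpand (AlgebraicClosure ℚ) ℓ (ES_tw (u ^ ℓ) (f : LaurentSeries (AlgebraicClosure ℚ))) := by
  rw [S37H_sigmaTw_apply, GRHP_coe_phiInf_beta, S37H_tw_qExpand]


theorem S37H_pow_pow_eq_one (u : (AlgebraicClosure ℚ)ˣ) (hu : u ^ (ℓ * ℓ) = 1) (i : ℕ) :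
    (u ^ i) ^ (ℓ * ℓ) = 1 := by
  rw [← pow_mul, mul_comm, pow_mul, hu, one_pow]

/-- the family of the `ℓ + 1` embeddings of `F_{Nℓ}` into `E` over `k₂`. -/
def S37H_fam (hℓ : ℓ.Prime) (u : (AlgebraicClosure ℚ)ˣ) (hu : u ^ (ℓ * ℓ) = 1) :
    Option (Fin ℓ) → (↥(modularFunctionFieldBar (N * ℓ)) →ₐ[↥(S37H_k N ℓ)]
      LaurentSeries (AlgebraicClosure ℚ))
  | none => S37H_sigmaInf N ℓ
  | some i => S37H_sigmaTw N ℓ y w h hℓ (u ^ (i : ℕ)) (S37H_pow_pow_eq_one ℓ u hu i)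

theorem S37H_fam_none (hℓ : ℓ.Prime) (u : (AlgebraicClosure ℚ)ˣ) (hu : u ^ (ℓ * ℓ) = 1) :
    S37H_fam N ℓ y w h hℓ u hu none = S37H_sigmaInf N ℓ := rfl

theorem S37H_fam_some (hℓ : ℓ.Prime) (u : (AlgebraicClosure ℚ)ˣ) (hu : u ^ (ℓ * ℓ) = 1)
    (i : Fin ℓ) :
    S37H_fam N ℓ y w h hℓ u hu (some i) =
      S37H_sigmaTw N ℓ y w h hℓ (u ^ (i : ℕ)) (S37H_pow_pow_eq_one ℓ u hu i) := rfl

/-- value of the family on `β f`. -/
theorem S37H_fam_some_beta (hℓ : ℓ.Prime) (u : (AlgebraicClosure ℚ)ˣ) (hu : u ^ (ℓ * ℓ) = 1)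
    (i : Fin ℓ) (f : ↥(modularFunctionFieldBar N)) :
    S37H_fam N ℓ y w h hℓ u hu (some i) (heckeBetaBar (AlgebraicClosure ℚ) N ℓ f) =
      qExpand (AlgebraicClosure ℚ) ℓ
        (ES_tw ((u ^ ℓ) ^ (i : ℕ)) (f : LaurentSeries (AlgebraicClosure ℚ))) := by
  rw [S37H_fam_some, S37H_sigmaTw_beta, ← pow_mul, mul_comm, pow_mul]

end Fermat.Agent.S37
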