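import Mathlib
import Fermat.Agent.S37.H1Defs

/-!
# S37, package (B): the `ℓ + 1` embeddings `S37H_fam` are pairwise distinct

Test element: `β j` (`j` the `j`-invariant, `β f = f(q^ℓ)`), coefficient at `ℓ * (-1)`:
* `fam none (β j) = V (V (V j))` has coefficient `0` there (`ℓ ∤ -1`),
* `fam (some i) (β j) = V (tw_{ζ^i} j)` has coefficient `(ζ^i)⁻¹` there, `ζ = u^ℓ`.
-/

set_option autoImplicit false
set_option synthInstance.maxHeartbeats 400000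
set_option maxHeartbeats 1000000
set_option linter.unusedSectionVars false

open ModularCurve IntermediateField AlgebraicCurve

noncomputable section

namespace Fermat.Agent.S37

open Fermat.Agent.S24 Fermat.Agent.GalRep

attribute [local instance] S37H_alg2

variable (N ℓ : ℕ) [NeZero N] [NeZero ℓ]

/-- the `q`-expansion of `j ∈ F_N`. -/
theorem S37H_coe_jB :
    ((jB N : ↥(modularFunctionFieldBar N)) : LaurentSeries (AlgebraicClosure ℚ)) =
      jqModC (AlgebraicClosure ℚ) := by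
  rw [← GRHS_coe_alpha_jB (N := N) (ℓ := 1), coe_heckeAlphaBar]

theorem S37H_not_dvd_neg_one (hℓ : ℓ.Prime) : ¬ (ℓ : ℤ) ∣ (-1 : ℤ) := by
  intro hdvd
  have h1 : (ℓ : ℤ) ∣ 1 := (Int.dvd_neg).mp hdvd
  have h2 : ℓ ∣ 1 := Int.natCast_dvd_natCast.mp (by simpa using h1)
  exact hℓ.one_lt.ne' (Nat.dvd_one.mp h2)

variable (y w : ℤ) (h : (ℓ : ℤ) * w - N * y = 1)

/-- the coefficient of `fam none (β j)` at `ℓ * (-1)` vanishes. -/
theorem S37H_fam_none_j_coeff (hℓ : ℓ.Prime) (u : (AlgebraicClosure ℚ)ˣ)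
    (hu : u ^ (ℓ * ℓ) = 1) :
    (S37H_fam N ℓ y w h hℓ u hu none
      (heckeBetaBar (AlgebraicClosure ℚ) N ℓ (jB N))).coeff ((ℓ : ℤ) * (-1)) = 0 := by
  rw [S37H_fam_none, S37H_sigmaInf_beta, qExpand_coeff_mul]
  exact qExpand_coeff_of_not_dvd ℓ _ (S37H_not_dvd_neg_one ℓ hℓ)

/-- the coefficient of `fam (some i) (β j)` at `ℓ * (-1)` is `(ζ^i)⁻¹`, `ζ = u^ℓ`. -/
theorem S37H_fam_some_j_coeff (hℓ : ℓ.Prime) (u : (AlgebraicClosure ℚ)ˣ)
    (hu : u ^ (ℓ * ℓ) = 1) (i : Fin ℓ) :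
    (S37H_fam N ℓ y w h hℓ u hu (some i)
      (heckeBetaBar (AlgebraicClosure ℚ) N ℓ (jB N))).coeff ((ℓ : ℤ) * (-1)) =
      ((((u ^ ℓ) ^ (i : ℕ))⁻¹ : (AlgebraicClosure ℚ)ˣ) : AlgebraicClosure ℚ) := by
  rw [S37H_fam_some_beta, qExpand_coeff_mul, S37H_coe_jB N, ES_tw_coeff,
    coeff_jqModC_neg_one, mul_one, zpow_neg_one]

/-- **the `ℓ + 1` embeddings are pairwise distinct.** -/
theorem S37H_fam_injective (N ℓ : ℕ) [NeZero N] [NeZero ℓ] (y w : ℤ)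
    (h : (ℓ : ℤ) * w - N * y = 1) (hℓ : ℓ.Prime) (u : (AlgebraicClosure ℚ)ˣ)
    (hu : u ^ (ℓ * ℓ) = 1) (hζ : IsPrimitiveRoot (u ^ ℓ) ℓ) :
    Function.Injective (S37H_fam N ℓ y w h hℓ u hu) := by
  have key : ∀ i : Fin ℓ, S37H_fam N ℓ y w h hℓ u hu none ≠
      S37H_fam N ℓ y w h hℓ u hu (some i) := by
    intro i hcon
    have h1 := congrArg (fun σ : ↥(modularFunctionFieldBar (N * ℓ)) →ₐ[↥(S37H_k N ℓ)]
      LaurentSeries (AlgebraicClosure ℚ) =>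
        (σ (heckeBetaBar (AlgebraicClosure ℚ) N ℓ (jB N))).coeff ((ℓ : ℤ) * (-1))) hcon
    simp only [S37H_fam_none_j_coeff, S37H_fam_some_j_coeff] at h1
    exact Units.ne_zero _ h1.symm
  intro a b hab
  rcases a with _ | i <;> rcases b with _ | i'
  · rfl
  · exact absurd hab (key i')
  · exact absurd hab.symm (key i)
  · have h1 := congrArg (fun σ : ↥(modularFunctionFieldBar (N * ℓ)) →ₐ[↥(S37H_k N ℓ)]
      LaurentSeries (AlgebraicClosure ℚ) =>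
        (σ (heckeBetaBar (AlgebraicClosure ℚ) N ℓ (jB N))).coeff ((ℓ : ℤ) * (-1))) hab
    simp only [S37H_fam_some_j_coeff] at h1
    have h2 : ((u ^ ℓ) ^ (i : ℕ))⁻¹ = ((u ^ ℓ) ^ (i' : ℕ))⁻¹ := Units.ext h1
    exact congrArg some (Fin.ext (hζ.pow_inj i.2 i'.2 (inv_injective h2)))

end Fermat.Agent.S37
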