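import Mathlib
import Fermat.Agent.S37.H1Defs
import Fermat.Agent.S37.H1Inj
import Fermat.Agent.S24.NormEmb

/-!
# S37, package (B): the `q`-expansion formula (H1) — finrank, norm = product, assembly
-/

set_option autoImplicit false
set_option synthInstance.maxHeartbeats 400000
set_option maxHeartbeats 1000000
set_option linter.unusedSectionVars false

open ModularCurve IntermediateField AlgebraicCurve

noncomputable section

namespace Fermat.Agent.S37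

open Fermat.Agent.S24 Fermat.Agent.GalRep

attribute [local instance] S37H_alg2

variable (N ℓ : ℕ) [NeZero N] [NeZero ℓ]

/-- `[F_{Nℓ} : k₂] = ℓ + 1`. -/
theorem S37H_finrank (hℓ : ℓ.Prime) (hℓN : ¬ ℓ ∣ N) :
    Module.finrank ↥(S37H_k N ℓ) ↥(modularFunctionFieldBar (N * ℓ)) = ℓ + 1 := by
  rw [← S37P_finrank_alpha_explicit N ℓ hℓ hℓN]
  symm
  refine @Algebra.finrank_eq_of_equiv_equiv ↥(modularFunctionFieldBar N)
    ↥(modularFunctionFieldBar (N * ℓ)) _ _ (heckeAlphaBar (AlgebraicClosure ℚ) N ℓ).toRingHom.toAlgebra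
    ↥(S37H_k N ℓ) ↥(modularFunctionFieldBar (N * ℓ)) _ _ _ (S37H_e N ℓ) (RingEquiv.refl _) ?_
  refine RingHom.ext fun x => ?_
  show heckeAlphaBar (AlgebraicClosure ℚ) N ℓ ((S37H_e N ℓ).symm (S37H_e N ℓ x)) =
    heckeAlphaBar (AlgebraicClosure ℚ) N ℓ x
  rw [RingEquiv.symm_apply_apply]

/-- the norm over `k₂` is the transport of `S37_t`. -/
theorem S37H_e_t (f : ↥(modularFunctionFieldBar N)) :
    S37H_e N ℓ (S37_t N ℓ f) =
      Algebra.norm ↥(S37H_k N ℓ) (heckeBetaBar (AlgebraicClosure ℚ) N ℓ f) := by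
  refine @Algebra.norm_eq_of_ringEquiv ↥(modularFunctionFieldBar N) ↥(S37H_k N ℓ)
    ↥(modularFunctionFieldBar (N * ℓ)) _ _ _
    (heckeAlphaBar (AlgebraicClosure ℚ) N ℓ).toRingHom.toAlgebra _ (S37H_e N ℓ) ?_
    (heckeBetaBar (AlgebraicClosure ℚ) N ℓ f)
  refine RingHom.ext fun x => ?_
  show heckeAlphaBar (AlgebraicClosure ℚ) N ℓ ((S37H_e N ℓ).symm (S37H_e N ℓ x)) =
    heckeAlphaBar (AlgebraicClosure ℚ) N ℓ x
  rw [RingEquiv.symm_apply_apply]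


theorem S37H_finiteDimensional (hℓ : ℓ.Prime) (hℓN : ¬ ℓ ∣ N) :
    FiniteDimensional ↥(S37H_k N ℓ) ↥(modularFunctionFieldBar (N * ℓ)) :=
  Module.finite_of_finrank_pos (by rw [S37H_finrank N ℓ hℓ hℓN]; omega)

variable (y w : ℤ) (h : (ℓ : ℤ) * w - N * y = 1)

/-- the norm formula in `E`: `V² (t f) = V (ES_rhs ℓ ζ f)`, `ζ = u^ℓ`. -/
theorem S37H_norm_formula (hℓ : ℓ.Prime) (hℓN : ¬ ℓ ∣ N) (u : (AlgebraicClosure ℚ)ˣ)
    (hu : u ^ (ℓ * ℓ) = 1) (hinj : Function.Injective (S37H_fam N ℓ y w h hℓ u hu))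
    (f : ↥(modularFunctionFieldBar N)) :
    qExpand (AlgebraicClosure ℚ) ℓ (qExpand (AlgebraicClosure ℚ) ℓ
        ((S37_t N ℓ f : ↥(modularFunctionFieldBar N)) : LaurentSeries (AlgebraicClosure ℚ))) =
      qExpand (AlgebraicClosure ℚ) ℓ
        (ES_rhs ℓ (u ^ ℓ) (f : LaurentSeries (AlgebraicClosure ℚ))) := by
  haveI := S37H_finiteDimensional N ℓ hℓ hℓN
  haveI : CharZero ↥(S37H_k N ℓ) := RingHom.charZero (S37H_e N ℓ).symm.toRingHom
  have hcard : Module.finrank ↥(S37H_k N ℓ) ↥(modularFunctionFieldBar (N * ℓ)) ≤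
      Fintype.card (Option (Fin ℓ)) := by
    rw [S37H_finrank N ℓ hℓ hℓN, Fintype.card_option, Fintype.card_fin]
  have key := S24_norm_eq_prod_of_injective (S37H_fam N ℓ y w h hℓ u hu) hinj hcard
    (heckeBetaBar (AlgebraicClosure ℚ) N ℓ f)
  rw [← S37H_e_t, Fintype.prod_option, S37H_fam_none, S37H_sigmaInf_beta] at key
  have e1 : algebraMap ↥(S37H_k N ℓ) (LaurentSeries (AlgebraicClosure ℚ))
      (S37H_e N ℓ (S37_t N ℓ f)) =
      qExpand (AlgebraicClosure ℚ) ℓ (qExpand (AlgebraicClosure ℚ) ℓ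
        ((S37_t N ℓ f : ↥(modularFunctionFieldBar N)) : LaurentSeries (AlgebraicClosure ℚ))) :=
    rfl
  rw [e1] at key
  rw [key, ES_rhs, map_mul, map_prod]
  congr 1
  rw [← Fin.prod_univ_eq_prod_range
    (fun i => qExpand (AlgebraicClosure ℚ) ℓ
      (ES_tw ((u ^ ℓ) ^ i) (f : LaurentSeries (AlgebraicClosure ℚ)))) ℓ]
  refine Finset.prod_congr rfl fun i _ => ?_
  rw [S37H_fam_some_beta]

/-- (H1) from the injectivity of the family. -/
theorem S37H_H1_of_injective (hℓ : ℓ.Prime) (hℓN : ¬ ℓ ∣ N) (u : (AlgebraicClosure ℚ)ˣ)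
    (hu : u ^ (ℓ * ℓ) = 1) (hinj : Function.Injective (S37H_fam N ℓ y w h hℓ u hu)) :
    S37_H1Stmt N ℓ := by
  refine ⟨u ^ ℓ, by rw [← pow_mul, hu], fun f _ => ?_⟩
  exact qExpand_injective (R := AlgebraicClosure ℚ) ℓ
    (S37H_norm_formula N ℓ y w h hℓ hℓN u hu hinj f)


omit [NeZero N] in
/-- a primitive `ℓ²`-th root of unity in `ℚ̄`, as a unit. -/
theorem S37H_exists_root : ∃ u : (AlgebraicClosure ℚ)ˣ, u ^ (ℓ * ℓ) = 1 ∧
    IsPrimitiveRoot (u ^ ℓ) ℓ := by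
  haveI : NeZero (ℓ * ℓ) := ⟨mul_ne_zero (NeZero.ne ℓ) (NeZero.ne ℓ)⟩
  obtain ⟨z, hz⟩ := HasEnoughRootsOfUnity.exists_primitiveRoot (AlgebraicClosure ℚ) (ℓ * ℓ)
  have hz1 : z ^ (ℓ * ℓ) = 1 := hz.pow_eq_one
  refine ⟨(hz.isUnit (NeZero.ne _)).unit, ?_, ?_⟩
  · apply Units.ext
    rw [Units.val_pow_eq_pow_val, IsUnit.unit_spec, hz1, Units.val_one]
  · have h2 : IsPrimitiveRoot (z ^ ℓ) ℓ :=
      hz.pow (Nat.pos_of_ne_zero (NeZero.ne _)) rfl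
    have h3 : ((hz.isUnit (NeZero.ne _)).unit ^ ℓ : (AlgebraicClosure ℚ)ˣ) =
        (h2.isUnit (NeZero.ne ℓ)).unit := by
      apply Units.ext
      rw [Units.val_pow_eq_pow_val, IsUnit.unit_spec, IsUnit.unit_spec]
    rw [h3]
    exact IsPrimitiveRoot.coe_units_iff.mp (by rw [IsUnit.unit_spec]; exact h2)

/-- **(H1)**: the `q`-expansion formula for `t f = Norm_{F_{Nℓ}/α F_N} (β f)`. -/
theorem S37_H1 (hℓ : ℓ.Prime) (hℓN : ¬ ℓ ∣ N) : S37_H1Stmt N ℓ := by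
  obtain ⟨y, w, h⟩ := GRHP_exists_yw hℓ hℓN
  obtain ⟨u, hu, hζ⟩ := S37H_exists_root ℓ
  exact S37H_H1_of_injective N ℓ y w h hℓ hℓN u hu
    (S37H_fam_injective N ℓ y w h hℓ u hu hζ)

end Fermat.Agent.S37
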